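import Fermat.Agent.ChowlaLargeField.Witness
import Fermat.Agent.Root.SummaryWeilCharacterSums
import Fermat.Agent.SquarefreeFF.Local

/-!
# The lines `F + a`

Off a hypersurface of coefficient vectors the product of the discriminants of the `F + a + α_i` is
squarefree in `a`, so the product of the Moebius values sums to `O(√q)` over the line by Weil.
-/

set_option autoImplicit false
set_option linter.style.openClassical false
set_option linter.style.haveILetI false
set_option linter.unusedSectionVars false

noncomputable section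

open scoped Classical

namespace FA.ChowlaLargeField

open Polynomial BunyakovskyFails

variable {k : Type*} [Field k] [Fintype k] {m : ℕ} {ι : Type*} [Fintype ι]

/-- The conditions on the family of shifts. -/
structure Admissible (m : ℕ) (α : ι → k[X]) : Prop where
  char : ringChar k ≠ 2
  natCast : (m : k) ≠ 0
  natCast_succ : ((m + 1 : ℕ) : k) ≠ 0
  degree_lt : ∀ i, (α i).degree < (m + 1 : ℕ)
  injective : Function.Injective α

/-- The polynomial whose zeros are the degenerate coefficient vectors. -/
def degenPoly (m : ℕ) (α : ι → k[X]) : MvPolynomial (Fin m) k :=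
  (∏ i, sepPoly m (α i)) *
    ∏ e ∈ (Finset.univ : Finset ι).offDiag, crossPoly m (α e.1) (α e.2)

theorem totalDegree_degenPoly_le (α : ι → k[X]) :
    (degenPoly m α).totalDegree ≤ 2 * m * (2 * m + 1) * Fintype.card ι ^ 2 := by
  refine (MvPolynomial.totalDegree_mul _ _).trans ((Nat.add_le_add
    ((MvPolynomial.totalDegree_finsetProd _ _).trans (Finset.sum_le_card_nsmul _ _ _ fun i _ =>
      totalDegree_sepPoly_le _))
    ((MvPolynomial.totalDegree_finsetProd _ _).trans (Finset.sum_le_card_nsmul _ _ _ fun _ _ =>
      totalDegree_crossPoly_le _ _))).trans (le_of_eq ?_))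
  rw [← add_nsmul, Finset.offDiag_card, Finset.card_univ, smul_eq_mul,
    Nat.add_sub_cancel' (Nat.le_mul_self _), ← sq, mul_comm]

theorem degenPoly_ne_zero {α : ι → k[X]} (hA : Admissible m α) : degenPoly m α ≠ 0 :=
  mul_ne_zero (Finset.prod_ne_zero_iff.mpr fun i _ =>
    sepPoly_ne_zero (hA.degree_lt i) hA.natCast_succ hA.natCast)
    (Finset.prod_ne_zero_iff.mpr fun _ he => crossPoly_ne_zero (hA.degree_lt _) (hA.degree_lt _)
      hA.natCast_succ fun h => (Finset.mem_offDiag.mp he).2.2 (hA.injective h))

/-- The product of the discriminants along a line. -/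
def lineProd (m : ℕ) (α : ι → k[X]) (z : Fin m → k) : k[X] :=
  ∏ i, (discLine m (α i)).map (MvPolynomial.eval z)

theorem map_eval_discLine (α : k[X]) (z : Fin m → k) {K : Type*} [Field K] (φ : k →+* K) :
    ((discLine m α).map (MvPolynomial.eval z)).map φ =
      (discLine m α).map (MvPolynomial.eval₂Hom φ (φ ∘ z)) := by
  rw [Polynomial.map_map]
  congr 1
  exact MvPolynomial.ringHom_ext (fun c => by simp) fun i => by simp

theorem map_eval_sepPoly (G : MvPolynomial (Fin m) k) (z : Fin m → k) {K : Type*} [Field K]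
    (φ : k →+* K) : φ (MvPolynomial.eval z G) = MvPolynomial.eval₂Hom φ (φ ∘ z) G := by
  rw [← RingHom.comp_apply]
  congr 1
  exact MvPolynomial.ringHom_ext (fun c => by simp) fun i => by simp

theorem natDegree_lineFactor {α : ι → k[X]} (hA : Admissible m α) (z : Fin m → k) (i : ι) :
    ((discLine m (α i)).map (MvPolynomial.eval z)).natDegree = m ∧
      (discLine m (α i)).map (MvPolynomial.eval z) ≠ 0 := by
  set φ := algebraMap k (AlgebraicClosure k)
  have hn : ((m + 1 : ℕ) : AlgebraicClosure k) ≠ 0 := by
    rw [← map_natCast φ]; exact (map_ne_zero φ).mpr hA.natCast_succ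
  obtain ⟨h1, h2, -⟩ := natDegree_map_discLine φ (hA.degree_lt i) hn (φ ∘ z)
  rw [← map_eval_discLine, natDegree_map] at h1
  rw [← map_eval_discLine, Polynomial.map_ne_zero_iff φ.injective] at h2
  exact ⟨h1, h2⟩

theorem natDegree_lineProd {α : ι → k[X]} (hA : Admissible m α) (z : Fin m → k) :
    (lineProd m α z).natDegree = Fintype.card ι * m ∧ lineProd m α z ≠ 0 := by
  refine ⟨?_, Finset.prod_ne_zero_iff.mpr fun i _ => (natDegree_lineFactor hA z i).2⟩
  rw [lineProd, natDegree_prod _ _ fun i _ => (natDegree_lineFactor hA z i).2,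
    Finset.sum_congr rfl fun i _ => (natDegree_lineFactor hA z i).1, Finset.sum_const,
    Finset.card_univ, smul_eq_mul]

/-- **Off the hypersurface the product is squarefree.** -/
theorem separable_lineProd {α : ι → k[X]} (hA : Admissible m α) {z : Fin m → k}
    (hz : MvPolynomial.eval z (degenPoly m α) ≠ 0) : (lineProd m α z).Separable := by
  set φ := algebraMap k (AlgebraicClosure k)
  have hn : ((m + 1 : ℕ) : AlgebraicClosure k) ≠ 0 := by
    rw [← map_natCast φ]; exact (map_ne_zero φ).mpr hA.natCast_succ
  have hm : (m : AlgebraicClosure k) ≠ 0 := by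
    rw [← map_natCast φ]; exact (map_ne_zero φ).mpr hA.natCast
  rw [degenPoly, map_mul, map_prod, map_prod, mul_ne_zero_iff, Finset.prod_ne_zero_iff,
    Finset.prod_ne_zero_iff] at hz
  refine separable_prod (fun i j hij => ?_) fun i => ?_
  · show IsCoprime _ _
    rw [← isCoprime_map φ, map_eval_discLine, map_eval_discLine,
      ← crossPoly_eval_ne_zero_iff φ (hA.degree_lt i) (hA.degree_lt j) hn, ← map_eval_sepPoly]
    exact (map_ne_zero φ).mpr
      (hz.2 (i, j) (Finset.mem_offDiag.mpr ⟨Finset.mem_univ _, Finset.mem_univ _, hij⟩))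
  · rw [← separable_map φ, map_eval_discLine,
      ← sepPoly_eval_ne_zero_iff φ (hA.degree_lt i) hn hm, ← map_eval_sepPoly]
    exact (map_ne_zero φ).mpr (hz.1 i (Finset.mem_univ _))

/-- The degenerate vectors are few. -/
theorem natCard_degenerate_mul_le {α : ι → k[X]} (hA : Admissible m α) :
    Nat.card {z : Fin m → k // MvPolynomial.eval z (degenPoly m α) = 0} * Fintype.card k ≤
      2 * m * (2 * m + 1) * Fintype.card ι ^ 2 * Fintype.card k ^ m := by
  have h := LangWeilAll.natCard_zeros_mul_le (degenPoly_ne_zero hA)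
  rw [Nat.card_eq_fintype_card (α := k)] at h
  exact h.trans (Nat.mul_le_mul_right _ (totalDegree_degenPoly_le α))

/-- The sign in front of the character. -/
def lineSign (k : Type*) [Field k] [Fintype k] (m : ℕ) : ℤ :=
  (-1) ^ (m + 1) * quadraticChar k ((-1) ^ ((m + 1) * (m + 1 - 1) / 2))

theorem abs_lineSign : |lineSign k m| = 1 := by
  rw [lineSign, abs_mul, abs_pow, abs_neg, abs_one, one_pow, one_mul]
  rcases quadraticChar_dichotomy (pow_ne_zero ((m + 1) * (m + 1 - 1) / 2)
    (neg_ne_zero.mpr (one_ne_zero (α := k)))) with e | e <;> rw [e] <;> simp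

/-- **Pellet on a line.** -/
theorem mu_poly_cons {α : ι → k[X]} (hA : Admissible m α) (i : ι) (a : k) (z : Fin m → k) :
    mu (poly (RingHom.id k) (α i) (Fin.cons a z)) = lineSign k m *
      quadraticChar k (((discLine m (α i)).map (MvPolynomial.eval z)).eval a) := by
  obtain ⟨hmon, hdeg⟩ := monic_poly (RingHom.id k) (hA.degree_lt i) (Fin.cons a z)
  have hd := natDegree_derivative_poly (RingHom.id k) (hA.degree_lt i) hA.natCast_succ
    (Fin.cons a z)
  have he : MvPolynomial.eval z = MvPolynomial.eval₂Hom (RingHom.id k) z := rfl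
  rw [mu_eq_quadraticChar_disc hA.char hmon, disc, hd, hdeg, lineSign, mul_assoc, ← map_mul, he,
    eval_map_discLine]

/-- The product of the Moebius values at a point of a line. -/
theorem prod_mu_line {α : ι → k[X]} (hA : Admissible m α) (a : k) (z : Fin m → k) :
    ∏ i, mu (poly (RingHom.id k) (α i) (Fin.cons a z)) =
      lineSign k m ^ Fintype.card ι * quadraticChar k ((lineProd m α z).eval a) := by
  rw [Finset.prod_congr rfl fun i _ => mu_poly_cons hA i a z, Finset.prod_mul_distrib,
    Finset.prod_const, Finset.card_univ, lineProd, eval_prod, map_prod]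

variable (k) in
/-- The quadratic character with complex values. -/
def chiC : MulChar k ℂ := (quadraticChar k).ringHomComp (Int.castRingHom ℂ)

theorem orderOf_chiC (h2 : ringChar k ≠ 2) : orderOf (chiC k) = 2 := by
  refine orderOf_eq_prime ?_ ?_
  · rw [chiC, sq, ← MulChar.ringHomComp_mul, ← sq, (quadraticChar_isQuadratic k).sq_eq_one,
      MulChar.ringHomComp_one]
  · rw [chiC, Ne, MulChar.ringHomComp_eq_one_iff (RingHom.injective_int _)]
    exact quadraticChar_ne_one h2

/-- **Weil on a good line.** -/
theorem abs_line_sum_le {α : ι → k[X]} (hA : Admissible m α) [Nonempty ι] {z : Fin m → k}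
    (hz : MvPolynomial.eval z (degenPoly m α) ≠ 0) :
    |((∑ a : k, ∏ i, mu (poly (RingHom.id k) (α i) (Fin.cons a z)) : ℤ) : ℝ)| ≤
      (Fintype.card ι * m : ℕ) * Real.sqrt (Fintype.card k) := by
  obtain ⟨hdeg, h0⟩ := natDegree_lineProd hA z
  have hpos : 0 < Fintype.card ι * m := Nat.mul_pos Fintype.card_pos
    (Nat.pos_of_ne_zero fun h => hA.natCast (by rw [h, Nat.cast_zero]))
  rw [Finset.sum_congr rfl fun a _ => prod_mu_line hA a z, ← Finset.mul_sum, Int.cast_mul,
    abs_mul, Int.cast_pow, abs_pow, ← Int.cast_abs, abs_lineSign, Int.cast_one, one_pow, one_mul]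
  have hnot : ¬ ∃ (c : k) (u : k[X]), lineProd m α z = C c * u ^ orderOf (chiC k) := by
    rintro ⟨c, u, hu⟩
    rw [orderOf_chiC hA.char] at hu
    have hunit := (separable_lineProd hA hz).squarefree u
      ⟨C c, by rw [hu]; ring⟩
    have h1 := congrArg natDegree hu
    rw [hdeg] at h1
    have h2 := (natDegree_mul_le (p := C c) (q := u ^ 2)).trans
      (Nat.add_le_add (natDegree_C c).le natDegree_pow_le)
    rw [natDegree_eq_zero_of_isUnit hunit] at h2
    omega
  have hw := CharacterSums.Summary.weil_character_sum (chiC k) (lineProd m α z) hnot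
  have hcast : ∑ a : k, chiC k ((lineProd m α z).eval a) =
      ((∑ a : k, quadraticChar k ((lineProd m α z).eval a) : ℤ) : ℂ) := by
    push_cast
    rfl
  rw [hcast, Complex.norm_intCast] at hw
  refine hw.trans (mul_le_mul_of_nonneg_right ?_ (Real.sqrt_nonneg _))
  refine Nat.cast_le.mpr ((Nat.sub_le _ _).trans ?_)
  rw [rootSet_def, Set.ncard_coe_finset, ← hdeg]
  exact (Multiset.toFinset_card_le _).trans ((card_roots' _).trans natDegree_map_le)

/-- The Moebius values are at most one in absolute value. -/
theorem abs_mu_le_one (h : k[X]) : |mu h| ≤ 1 := by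
  rw [mu]
  split <;> simp

/-- A vanishing value is a root of the product. -/
theorem natCard_zero_le {α : ι → k[X]} (hA : Admissible m α) (z : Fin m → k) :
    Nat.card {a : k // ∃ i, mu (poly (RingHom.id k) (α i) (Fin.cons a z)) = 0} ≤
      Fintype.card ι * m := by
  obtain ⟨hdeg, h0⟩ := natDegree_lineProd hA z
  rw [← hdeg, Nat.card_eq_fintype_card, Fintype.card_subtype]
  refine le_trans (Finset.card_le_card (t := (lineProd m α z).roots.toFinset) fun a ha => ?_)
    ((Multiset.toFinset_card_le _).trans (card_roots' _))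
  obtain ⟨i, hi⟩ := (Finset.mem_filter.mp ha).2
  rw [mu_poly_cons hA, mul_eq_zero] at hi
  rw [Multiset.mem_toFinset, mem_roots h0, IsRoot, lineProd, eval_prod]
  refine Finset.prod_eq_zero (Finset.mem_univ i) (quadraticChar_eq_zero_iff.mp ?_)
  exact hi.resolve_left fun h => by
    have := abs_lineSign (k := k) (m := m)
    rw [h] at this
    simp at this

end FA.ChowlaLargeField
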