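import Fermat.Agent.ChowlaLargeField.Count

/-!
# Chowla's conjecture for large finite fields

The lines sum to `O(√q)` each off a set of `O(q ^ (n - 2))` coefficient vectors, so the correlations
of the Moebius function are `O(q ^ (n - 1/2))`, and the sign patterns are equidistributed.
-/

set_option autoImplicit false
set_option linter.style.openClassical false
set_option linter.style.haveILetI false
set_option linter.unusedSectionVars false

noncomputable section

open scoped Classical

namespace FA.ChowlaLargeField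

open Polynomial BunyakovskyFails

variable {k : Type*} [Field k] [Fintype k] {m : ℕ} {ι : Type*} [Fintype ι]

/-- The constant of the bounds. -/
def chowlaConst (r m : ℕ) : ℕ := r * m + 2 * m * (2 * m + 1) * r ^ 2

theorem chowlaConst_mono {r r' : ℕ} (h : r ≤ r') (m : ℕ) : chowlaConst r m ≤ chowlaConst r' m :=
  Nat.add_le_add (Nat.mul_le_mul_right _ h) (Nat.mul_le_mul_left _ (Nat.pow_le_pow_left h 2))

/-- The monic polynomials of degree `m + 1`, as lines. -/
def lineEquiv (m : ℕ) : SquarefreeFF.Deg k (m + 1) ≃ k × (Fin m → k) :=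
  (degreeLTEquiv k (m + 1)).toEquiv.trans (Fin.consEquiv fun _ => k).symm

theorem poly_lineEquiv_symm (α : k[X]) (x : k × (Fin m → k)) :
    X ^ (m + 1) + ((lineEquiv m).symm x).1 + α = poly (RingHom.id k) α (Fin.cons x.1 x.2) := by
  rw [poly, Polynomial.map_id, add_right_comm]
  rfl

/-- Sums over the monic polynomials are sums over lines. -/
theorem finsum_lines (f : k[X] → ℤ) :
    ∑ᶠ a : SquarefreeFF.Deg k (m + 1), f (X ^ (m + 1) + a.1) =
      ∑ z : Fin m → k, ∑ a : k, f (X ^ (m + 1) + ((lineEquiv m).symm (a, z)).1) := by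
  haveI := Fintype.ofFinite (SquarefreeFF.Deg k (m + 1))
  rw [finsum_eq_sum_of_fintype, ← (lineEquiv m).symm.sum_comp, Fintype.sum_prod_type_right]

theorem natCard_deg_lines (s : k[X] → Prop) :
    Nat.card {a : SquarefreeFF.Deg k (m + 1) // s (X ^ (m + 1) + a.1)} =
      ∑ z : Fin m → k,
        Nat.card {a : k // s (X ^ (m + 1) + ((lineEquiv m).symm (a, z)).1)} := by
  rw [← Nat.card_sigma]
  exact Nat.card_congr ((((lineEquiv m).trans (Equiv.prodComm _ _)).subtypeEquiv
    (q := fun x => s (X ^ (m + 1) + ((lineEquiv m).symm (x.2, x.1)).1))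
      fun a => by simp).trans (Equiv.subtypeProdEquivSigmaSubtype
        fun z a => s (X ^ (m + 1) + ((lineEquiv m).symm (a, z)).1)))

/-- **Chowla for large fields.** -/
theorem abs_chowla_sum_le [Nonempty ι] {α : ι → k[X]} (hA : Admissible m α) :
    |((∑ᶠ a : SquarefreeFF.Deg k (m + 1), ∏ i, mu (X ^ (m + 1) + a.1 + α i) : ℤ) : ℝ)| ≤
      (chowlaConst (Fintype.card ι) m : ℝ) * (Fintype.card k : ℝ) ^ m *
        Real.sqrt (Fintype.card k) := by
  set q := Fintype.card k with hq
  set r := Fintype.card ι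
  set bad := fun z : Fin m → k => MvPolynomial.eval z (degenPoly m α) = 0
  have hsq : (1 : ℝ) ≤ Real.sqrt q :=
    Real.one_le_sqrt.mpr (by exact_mod_cast Fintype.card_pos)
  have hline : ∀ z : Fin m → k,
      |((∑ a : k, ∏ i, mu (poly (RingHom.id k) (α i) (Fin.cons a z)) : ℤ) : ℝ)| ≤
        (r * m : ℕ) * Real.sqrt q + if bad z then (q : ℝ) else 0 := fun z => by
    by_cases hz : bad z
    · rw [if_pos hz]
      refine le_add_of_nonneg_of_le (by positivity) ?_
      rw [Int.cast_sum]
      refine (Finset.abs_sum_le_sum_abs _ _).trans ((Finset.sum_le_card_nsmul _ _ 1 fun a _ => ?_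
        ).trans (by simp [hq]))
      rw [← Int.cast_abs, Finset.abs_prod]
      exact_mod_cast Finset.prod_le_one (fun i _ => abs_nonneg _) fun i _ => abs_mu_le_one _
    · rw [if_neg hz, add_zero]
      exact abs_line_sum_le hA hz
  rw [finsum_lines fun f => ∏ i, mu (f + α i)]
  simp only [poly_lineEquiv_symm]
  rw [Int.cast_sum]
  refine (Finset.abs_sum_le_sum_abs _ _).trans ((Finset.sum_le_sum fun z _ => hline z).trans ?_)
  rw [Finset.sum_add_distrib, Finset.sum_const, ← Finset.sum_filter, Finset.sum_const,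
    Finset.card_univ, Fintype.card_pi, Finset.prod_const, Finset.card_univ, Fintype.card_fin,
    nsmul_eq_mul, nsmul_eq_mul, ← hq]
  have hbad := natCard_degenerate_mul_le hA
  rw [Nat.card_eq_fintype_card, Fintype.card_subtype] at hbad
  have hbad' : ((Finset.univ.filter bad).card : ℝ) * q ≤
      (2 * m * (2 * m + 1) * r ^ 2 : ℕ) * (q : ℝ) ^ m := by exact_mod_cast hbad
  refine (add_le_add le_rfl (hbad'.trans (le_mul_of_one_le_right (by positivity) hsq))).trans
    (le_of_eq ?_)
  simp only [chowlaConst, r]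
  push_cast
  ring

/-- Few of the values vanish. -/
theorem natCard_some_zero_le {α : ι → k[X]} (hA : Admissible m α) :
    Nat.card {a : SquarefreeFF.Deg k (m + 1) // ∃ i, mu (X ^ (m + 1) + a.1 + α i) = 0} ≤
      chowlaConst (Fintype.card ι) m * Fintype.card k ^ m := by
  rw [natCard_deg_lines fun f => ∃ i, mu (f + α i) = 0]
  simp only [poly_lineEquiv_symm]
  refine (Finset.sum_le_card_nsmul _ _ _ fun z _ => natCard_zero_le hA z).trans ?_
  rw [Finset.card_univ, Fintype.card_pi, Finset.prod_const, Finset.card_univ, Fintype.card_fin,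
    smul_eq_mul, mul_comm]
  exact Nat.mul_le_mul_right _ (Nat.le_add_right _ _)

theorem prod_one_add_sub_indicator (ε v : ι → ℤ) (hε : ∀ i, ε i = 1 ∨ ε i = -1)
    (hv : ∀ i, |v i| ≤ 1) :
    |(∏ i, (1 + ε i * v i)) - if ∀ i, v i = ε i then (2 : ℤ) ^ Fintype.card ι else 0| ≤
      if ∃ i, v i = 0 then (2 : ℤ) ^ Fintype.card ι else 0 := by
  have habs : ∀ i, |1 + ε i * v i| ≤ 2 := fun i => by
    refine (abs_add_le _ _).trans ?_
    rw [abs_one, abs_mul]
    rcases hε i with e | e <;> rw [e] <;> simp <;> linarith [hv i]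
  by_cases hz : ∃ i, v i = 0
  · have hno : ¬ ∀ i, v i = ε i := fun h => by
      obtain ⟨i, hi⟩ := hz
      rcases hε i with e | e <;> rw [h i, e] at hi <;> norm_num at hi
    rw [if_pos hz, if_neg hno, sub_zero, Finset.abs_prod]
    exact (Finset.prod_le_prod (fun i _ => abs_nonneg _) fun i _ => habs i).trans_eq
      (by simp)
  · have hv' : ∀ i, v i = 1 ∨ v i = -1 := fun i => by
      have h1 := abs_le.mp (hv i)
      have h2 : v i ≠ 0 := fun h => hz ⟨i, h⟩
      omega
    rw [if_neg hz]
    split_ifs with hall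
    · have h2 : ∀ i, 1 + ε i * v i = 2 := fun i => by
        rcases hε i with e | e <;> rw [hall i, e] <;> norm_num
      simp [h2]
    · obtain ⟨i, hi⟩ := not_forall.mp hall
      have h0 : 1 + ε i * v i = 0 := by
        rcases hε i with e | e <;> rcases hv' i with e' | e' <;> rw [e, e'] at hi ⊢ <;>
          first | exact absurd rfl hi | norm_num
      rw [sub_zero, Finset.prod_eq_zero (f := fun i => 1 + ε i * v i) (Finset.mem_univ i) h0,
        abs_zero]

/-- **Equidistribution of the sign patterns.** -/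
theorem abs_pattern_count_sub_le {α : ι → k[X]} (hA : Admissible m α) (ε : ι → ℤ)
    (hε : ∀ i, ε i = 1 ∨ ε i = -1) :
    |(Nat.card {a : SquarefreeFF.Deg k (m + 1) // ∀ i, mu (X ^ (m + 1) + a.1 + α i) = ε i} : ℝ) -
        (Fintype.card k : ℝ) ^ (m + 1) / 2 ^ Fintype.card ι| ≤
      2 * (chowlaConst (Fintype.card ι) m : ℝ) * (Fintype.card k : ℝ) ^ m *
        Real.sqrt (Fintype.card k) := by
  haveI := Fintype.ofFinite (SquarefreeFF.Deg k (m + 1))
  set r := Fintype.card ι with hr
  set v := fun (a : SquarefreeFF.Deg k (m + 1)) i => mu (X ^ (m + 1) + a.1 + α i)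
  set B : ℝ := (chowlaConst r m : ℝ) * (Fintype.card k : ℝ) ^ m * Real.sqrt (Fintype.card k)
  have hB : 0 ≤ B := by positivity
  have hexp : ∑ a, ∏ i, (1 + ε i * v a i) =
      ∑ t ∈ (Finset.univ : Finset ι).powerset, (∏ i ∈ t, ε i) * ∑ a, ∏ i ∈ t, v a i := by
    simp only [Finset.prod_one_add, Finset.prod_mul_distrib]
    rw [Finset.sum_comm]
    simp only [Finset.mul_sum]
  have hsub : |((∑ a, ∏ i, (1 + ε i * v a i) : ℤ) : ℝ) - (Fintype.card k : ℝ) ^ (m + 1)| ≤
      ((2 : ℝ) ^ r - 1) * B := by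
    rw [hexp, ← Finset.add_sum_erase _ _ (Finset.empty_mem_powerset _)]
    simp only [Finset.prod_empty, one_mul, Finset.sum_const, Finset.card_univ, nsmul_eq_mul,
      mul_one, ← Nat.card_eq_fintype_card (α := SquarefreeFF.Deg k (m + 1)),
      SquarefreeFF.natCard_deg]
    push_cast
    rw [add_sub_cancel_left]
    refine (Finset.abs_sum_le_sum_abs _ _).trans
      ((Finset.sum_le_card_nsmul _ _ B fun t ht => ?_).trans ?_)
    · obtain ⟨hne, -⟩ := Finset.mem_erase.mp ht
      haveI : Nonempty t := (Finset.nonempty_iff_ne_empty.mpr hne).to_subtype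
      have h := abs_chowla_sum_le (α := fun i : t => α i.1)
        ⟨hA.char, hA.natCast, hA.natCast_succ, fun i => hA.degree_lt i.1,
          hA.injective.comp Subtype.val_injective⟩
      rw [finsum_eq_sum_of_fintype] at h
      have he : |∏ i ∈ t, (ε i : ℝ)| = 1 := by
        rw [Finset.abs_prod]
        exact Finset.prod_eq_one fun i _ => by rcases hε i with e | e <;> simp [e]
      rw [abs_mul, he, one_mul]
      have hcast : ((∑ a, ∏ i : t, v a i.1 : ℤ) : ℝ) = ∑ a, ∏ i ∈ t, (v a i : ℝ) := by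
        push_cast
        exact Finset.sum_congr rfl fun a _ => Finset.prod_coe_sort t fun i => (v a i : ℝ)
      rw [← hcast]
      refine h.trans (mul_le_mul_of_nonneg_right (mul_le_mul_of_nonneg_right ?_ (by positivity))
        (Real.sqrt_nonneg _))
      exact Nat.cast_le.mpr (chowlaConst_mono ((Fintype.card_coe t).trans_le
        ((Finset.card_le_univ t).trans hr.ge)) m)
    · rw [Finset.card_erase_of_mem (Finset.empty_mem_powerset _), Finset.card_powerset,
        Finset.card_univ, ← hr, nsmul_eq_mul, Nat.cast_sub Nat.one_le_two_pow]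
      push_cast
      rfl
  set N := Nat.card {a : SquarefreeFF.Deg k (m + 1) // ∀ i, v a i = ε i}
  have hind : |((∑ a, ∏ i, (1 + ε i * v a i) : ℤ) : ℝ) - (2 : ℝ) ^ r * N| ≤
      (2 : ℝ) ^ r * ((chowlaConst r m : ℝ) * (Fintype.card k : ℝ) ^ m) := by
    have h1 : (2 : ℤ) ^ r * (N : ℤ) = ∑ a, if ∀ i, v a i = ε i then (2 : ℤ) ^ r else 0 := by
      rw [← Finset.sum_filter, Finset.sum_const, nsmul_eq_mul, mul_comm]
      simp only [N, Nat.card_eq_fintype_card, Fintype.card_subtype]
    have h2 : |(∑ a, ∏ i, (1 + ε i * v a i)) - (2 : ℤ) ^ r * N| ≤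
        (2 : ℤ) ^ r * (chowlaConst r m * Fintype.card k ^ m : ℕ) := by
      rw [h1, ← Finset.sum_sub_distrib]
      refine (Finset.abs_sum_le_sum_abs _ _).trans ((Finset.sum_le_sum fun a _ =>
        prod_one_add_sub_indicator ε (v a) hε fun i => abs_mu_le_one _).trans ?_)
      rw [← Finset.sum_filter, Finset.sum_const, nsmul_eq_mul, mul_comm]
      refine mul_le_mul_of_nonneg_left (Nat.cast_le.mpr (le_of_eq_of_le ?_
        (natCard_some_zero_le hA))) (by positivity)
      rw [Nat.card_eq_fintype_card, Fintype.card_subtype]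
    have h3 := (Int.cast_le (R := ℝ)).mpr h2
    push_cast at h3 ⊢
    exact h3
  have hsq : (1 : ℝ) ≤ Real.sqrt (Fintype.card k) :=
    Real.one_le_sqrt.mpr (by exact_mod_cast Fintype.card_pos)
  have h2r : (0 : ℝ) < 2 ^ r := by positivity
  have hind' := hind.trans (mul_le_mul_of_nonneg_left
    (le_mul_of_one_le_right (by positivity) hsq) h2r.le)
  have hkey : |(2 : ℝ) ^ r * N - (Fintype.card k : ℝ) ^ (m + 1)| ≤ (2 : ℝ) ^ r * (2 * B) := by
    refine (abs_sub_le _ ((∑ a, ∏ i, (1 + ε i * v a i) : ℤ) : ℝ) _).trans ?_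
    rw [abs_sub_comm]
    exact (add_le_add hind' hsub).trans (le_of_le_of_eq
      (add_le_add le_rfl (mul_le_mul_of_nonneg_right (sub_le_self _ zero_le_one) hB)) (by ring))
  rw [show 2 * (chowlaConst r m : ℝ) * (Fintype.card k : ℝ) ^ m * Real.sqrt (Fintype.card k) =
    2 * B by ring]
  refine le_of_mul_le_mul_left ?_ h2r
  rw [← abs_of_pos h2r, ← abs_mul, abs_of_pos h2r, mul_sub, mul_div_cancel₀ _ h2r.ne']
  exact hkey

end FA.ChowlaLargeField
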