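import Fermat.Agent.BunyakovskyFails.Parity
import Fermat.Agent.LangWeilAll.Normalise

/-!
# The discriminant of a shifted generic monic polynomial

`genDisc α` is the resultant of `X ^ (m + 1) + α + ∑ c_i X ^ i` with its derivative, as a polynomial
in the `c_i`. In the constant term `c₀` it is, for each value of the others, a constant times the
product of `c₀ + f θ` over the critical points `θ`.
-/

set_option autoImplicit false
set_option linter.style.openClassical false
set_option linter.style.haveILetI false
set_option linter.unusedSectionVars false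

noncomputable section

open scoped Classical

namespace FA.ChowlaLargeField

open Polynomial

variable {k : Type*} [Field k] {K : Type*} [Field K] (φ : k →+* K) {m : ℕ}

/-- The monic polynomial of degree `m + 1` with coefficients `c`, shifted by `α`. -/
def poly (α : k[X]) (c : Fin (m + 1) → K) : K[X] :=
  X ^ (m + 1) + α.map φ + ∑ i : Fin (m + 1), monomial (i : ℕ) (c i)

/-- The generic one. -/
def genPoly (m : ℕ) (α : k[X]) : Polynomial (MvPolynomial (Fin (m + 1)) k) :=
  poly' (MvPolynomial.C) α MvPolynomial.X
where
  /-- The same formula over a ring. -/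
  poly' {R : Type _} [CommRing R] (ψ : k →+* R) (α : k[X]) (c : Fin (m + 1) → R) : R[X] :=
    X ^ (m + 1) + α.map ψ + ∑ i : Fin (m + 1), monomial (i : ℕ) (c i)

/-- The generic discriminant. -/
def genDisc (m : ℕ) (α : k[X]) : MvPolynomial (Fin (m + 1)) k :=
  resultant (genPoly m α) (derivative (genPoly m α)) (m + 1) m

theorem map_genPoly (α : k[X]) (c : Fin (m + 1) → K) :
    (genPoly m α).map (MvPolynomial.eval₂Hom φ c) = poly φ α c := by
  rw [genPoly, genPoly.poly', poly, Polynomial.map_add, Polynomial.map_add, Polynomial.map_pow,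
    map_X, Polynomial.map_map, Polynomial.map_sum]
  congr 1
  · congr 2
    exact RingHom.ext fun x => MvPolynomial.eval₂Hom_C _ _ _
  · simp

theorem eval₂_genDisc (α : k[X]) (c : Fin (m + 1) → K) :
    MvPolynomial.eval₂Hom φ c (genDisc m α) =
      resultant (poly φ α c) (derivative (poly φ α c)) (m + 1) m := by
  rw [genDisc, ← resultant_map_map, ← derivative_map, map_genPoly]

theorem totalDegree_coeff_genPoly_le (α : k[X]) (i : ℕ) :
    ((genPoly m α).coeff i).totalDegree ≤ 1 := by
  rw [genPoly, genPoly.poly', coeff_add, coeff_add, coeff_X_pow, coeff_map, finsetSum_coeff]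
  refine (MvPolynomial.totalDegree_add _ _).trans (max_le
    ((MvPolynomial.totalDegree_add _ _).trans (max_le ?_ (by simp)))
    ((MvPolynomial.totalDegree_finsetSum _ _).trans (Finset.sup_le fun j _ => ?_)))
  · split <;> simp
  · rw [coeff_monomial]
    split <;> simp

theorem totalDegree_genDisc_le (α : k[X]) : (genDisc m α).totalDegree ≤ 2 * m + 1 := by
  have hB : ∀ i, ((derivative (genPoly m α)).coeff i).totalDegree ≤ 1 := fun i => by
    rw [coeff_derivative, ← Nat.cast_succ, ← map_natCast MvPolynomial.C]
    exact (MvPolynomial.totalDegree_mul _ _).trans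
      (by rw [MvPolynomial.totalDegree_C, add_zero]; exact totalDegree_coeff_genPoly_le α _)
  rw [genDisc, resultant, Matrix.det_apply]
  refine (MvPolynomial.totalDegree_finsetSum _ _).trans (Finset.sup_le fun σ _ => ?_)
  have hprod : (∏ i, sylvester (genPoly m α) (derivative (genPoly m α)) (m + 1) m (σ i) i
      ).totalDegree ≤ 2 * m + 1 := by
    refine (MvPolynomial.totalDegree_finsetProd _ _).trans
      ((Finset.sum_le_card_nsmul _ _ 1 fun i _ => ?_).trans ?_)
    · rw [sylvester, Matrix.of_apply]
      induction i using Fin.addCases with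
      | left l =>
        rw [Fin.addCases_left]
        split_ifs
        · exact hB _
        · simp
      | right l =>
        rw [Fin.addCases_right]
        split_ifs
        · exact totalDegree_coeff_genPoly_le α _
        · simp
    · simp only [Finset.card_univ, Fintype.card_fin, smul_eq_mul, mul_one]
      omega
  rcases Int.units_eq_one_or (Equiv.Perm.sign σ) with e | e <;> rw [e] <;> simpa using hprod

theorem exists_poly_eq {α : k[X]} (hα : α.degree < (m + 1 : ℕ)) (c : Fin (m + 1) → K) :
    ∃ q : K[X], q.degree < (m + 1 : ℕ) ∧ poly φ α c = X ^ (m + 1) + q := by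
  refine ⟨α.map φ + ∑ i : Fin (m + 1), monomial (i : ℕ) (c i), ?_, by rw [poly, add_assoc]⟩
  refine mem_degreeLT.mp (Submodule.add_mem _ (mem_degreeLT.mpr ?_)
    (Submodule.sum_mem _ fun i _ => monomial_coe_mem_degreeLT i (c i)))
  rwa [degree_map_eq_of_injective φ.injective]

theorem monic_poly {α : k[X]} (hα : α.degree < (m + 1 : ℕ)) (c : Fin (m + 1) → K) :
    (poly φ α c).Monic ∧ (poly φ α c).natDegree = m + 1 := by
  obtain ⟨q, hq, he⟩ := exists_poly_eq φ hα c
  rw [he]
  refine ⟨monic_X_pow_add hq, natDegree_eq_of_degree_eq_some ?_⟩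
  rw [degree_add_eq_left_of_degree_lt (by rwa [degree_X_pow]), degree_X_pow]

theorem natDegree_derivative_poly {α : k[X]} (hα : α.degree < (m + 1 : ℕ))
    (hn : ((m + 1 : ℕ) : K) ≠ 0) (c : Fin (m + 1) → K) :
    (derivative (poly φ α c)).natDegree = m := by
  obtain ⟨hmon, hdeg⟩ := monic_poly φ hα c
  refine natDegree_eq_of_le_of_coeff_ne_zero ((natDegree_derivative_le _).trans (by omega)) ?_
  rw [coeff_derivative, ← hdeg, hmon.coeff_natDegree, one_mul, ← Nat.cast_succ]
  exact hn

theorem poly_cons (α : k[X]) (a : K) (z : Fin m → K) :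
    poly φ α (Fin.cons a z) = poly φ α (Fin.cons 0 z) + C a := by
  simp only [poly, Fin.sum_univ_succ, Fin.cons_zero, Fin.cons_succ, map_zero, zero_add,
    Fin.val_zero, monomial_zero_left]
  ring

/-- The discriminant as a polynomial in the constant term. -/
def discLine (m : ℕ) (α : k[X]) : Polynomial (MvPolynomial (Fin m) k) :=
  MvPolynomial.finSuccEquiv k m (genDisc m α)

theorem totalDegree_coeff_discLine_le (α : k[X]) (i : ℕ) :
    ((discLine m α).coeff i).totalDegree ≤ 2 * m + 1 :=
  (LangWeilAll.totalDegree_coeff_finSuccEquiv_le _ i).trans (totalDegree_genDisc_le α)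

theorem eval_map_discLine (α : k[X]) (y : K) (z : Fin m → K) :
    ((discLine m α).map (MvPolynomial.eval₂Hom φ z)).eval y =
      resultant (poly φ α (Fin.cons y z)) (derivative (poly φ α (Fin.cons y z))) (m + 1) m := by
  rw [← eval₂_genDisc φ α (Fin.cons y z), discLine]
  induction genDisc m α using MvPolynomial.induction_on with
  | C x => simp [MvPolynomial.finSuccEquiv_apply]
  | add u v hu hv => simp only [map_add, Polynomial.map_add, eval_add, hu, hv]
  | mul_X u i hu =>
    simp only [map_mul, Polynomial.map_mul, eval_mul, hu]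
    refine congrArg _ ?_
    refine Fin.cases ?_ (fun j => ?_) i <;>
      simp [MvPolynomial.finSuccEquiv_X_zero, MvPolynomial.finSuccEquiv_X_succ]

/-- **The roots in the constant term are the negated critical values.** -/
theorem map_discLine [IsAlgClosed K] {α : k[X]} (hα : α.degree < (m + 1 : ℕ))
    (hn : ((m + 1 : ℕ) : K) ≠ 0) (z : Fin m → K) :
    (discLine m α).map (MvPolynomial.eval₂Hom φ z) =
      C ((derivative (poly φ α (Fin.cons 0 z))).leadingCoeff ^ (m + 1)) *
        ((derivative (poly φ α (Fin.cons 0 z))).roots.map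
          fun θ => X + C ((poly φ α (Fin.cons 0 z)).eval θ)).prod := by
  set g := poly φ α (Fin.cons (0 : K) z) with hg
  refine Polynomial.funext fun a => ?_
  have hd : (derivative (poly φ α (Fin.cons a z))) = derivative g := by
    rw [poly_cons, derivative_add, derivative_C, add_zero]
  have hdeg : (g + C a).natDegree ≤ m + 1 := by
    rw [← poly_cons, (monic_poly φ hα _).2]
  have hev : Even ((m + 1) * m) := by simpa [mul_comm] using Nat.even_mul_succ_self m
  have h := resultant_eq_prod_eval (derivative g) (g + C a) (m + 1) hdeg (IsAlgClosed.splits _)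
  rw [hg, natDegree_derivative_poly φ hα hn, ← hg] at h
  rw [eval_map_discLine, hd, poly_cons, ← hg, resultant_comm, h, hev.neg_one_pow, one_mul,
    eval_mul, eval_C, eval_multiset_prod, Multiset.map_map]
  refine congrArg (fun v => _ * Multiset.prod v) (Multiset.map_congr rfl fun θ _ => ?_)
  simp [add_comm]

/-- The degree in the constant term. -/
theorem natDegree_map_discLine [IsAlgClosed K] {α : k[X]} (hα : α.degree < (m + 1 : ℕ))
    (hn : ((m + 1 : ℕ) : K) ≠ 0) (z : Fin m → K) :
    ((discLine m α).map (MvPolynomial.eval₂Hom φ z)).natDegree = m ∧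
      (discLine m α).map (MvPolynomial.eval₂Hom φ z) ≠ 0 ∧
      ((discLine m α).map (MvPolynomial.eval₂Hom φ z)).roots =
        (derivative (poly φ α (Fin.cons 0 z))).roots.map
          fun θ => -(poly φ α (Fin.cons 0 z)).eval θ := by
  have hd := natDegree_derivative_poly φ hα hn (Fin.cons 0 z)
  have h0 : derivative (poly φ α (Fin.cons 0 z)) ≠ 0 := fun e => by
    obtain ⟨hmon, hdeg⟩ := monic_poly φ hα (Fin.cons 0 z)
    have h := congrArg (fun p => coeff p m) e
    have h1 := hmon.coeff_natDegree
    rw [hdeg] at h1
    rw [coeff_derivative, coeff_zero, h1, one_mul] at h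
    exact hn (by exact_mod_cast h)
  have hs := pow_ne_zero (m + 1) (leadingCoeff_ne_zero.mpr h0)
  rw [map_discLine φ hα hn]
  set R := (derivative (poly φ α (Fin.cons 0 z))).roots
  set e := fun θ => (poly φ α (Fin.cons 0 z)).eval θ
  have hprod : (R.map fun θ => X + C (e θ)) = (R.map fun θ => -e θ).map fun a => X - C a := by
    rw [Multiset.map_map]
    exact Multiset.map_congr rfl fun θ _ => by simp
  have hcard : Multiset.card R = m := by
    rw [← (IsAlgClosed.splits (derivative (poly φ α (Fin.cons 0 z)))).natDegree_eq_card_roots, hd]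
  refine ⟨?_, mul_ne_zero (C_ne_zero.mpr hs) ?_, ?_⟩
  · rw [natDegree_C_mul hs, hprod, natDegree_multiset_prod_X_sub_C_eq_card, Multiset.card_map,
      hcard]
  · rw [hprod]
    exact (monic_multiset_prod_of_monic _ _ fun a _ => monic_X_sub_C a).ne_zero
  · rw [roots_C_mul _ hs, hprod, roots_multiset_prod_X_sub_C]

end FA.ChowlaLargeField
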