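import Fermat.Agent.ChowlaLargeField.Universal

/-!
# Nondegeneracy of the critical values

For generic coefficients the critical values of `f + α` are distinct (witness `X ^ n - X`), and
those of `f + α` and `f + β` are distinct for `α ≠ β` (witness `(X - s) ^ n`, all but finitely
many `s`).
-/

set_option autoImplicit false
set_option linter.style.openClassical false
set_option linter.style.haveILetI false
set_option linter.unusedSectionVars false

noncomputable section

open scoped Classical

namespace FA.ChowlaLargeField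

open Polynomial

variable {k : Type*} [Field k] {m : ℕ}

/-- Vanishing means a repeated critical value. -/
def sepPoly (m : ℕ) (α : k[X]) : MvPolynomial (Fin m) k :=
  resultant (discLine m α) (derivative (discLine m α)) m (m - 1)

/-- Vanishing means a common critical value. -/
def crossPoly (m : ℕ) (α β : k[X]) : MvPolynomial (Fin m) k :=
  resultant (discLine m α) (discLine m β) m m

theorem totalDegree_resultant_le' {σ : Type*} {P Q : Polynomial (MvPolynomial σ k)} {a b B : ℕ}
    (hP : ∀ i, (P.coeff i).totalDegree ≤ B) (hQ : ∀ i, (Q.coeff i).totalDegree ≤ B) :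
    (resultant P Q a b).totalDegree ≤ (a + b) * B := by
  rw [resultant, Matrix.det_apply]
  refine (MvPolynomial.totalDegree_finsetSum _ _).trans (Finset.sup_le fun σ' _ => ?_)
  have hprod : (∏ i, sylvester P Q a b (σ' i) i).totalDegree ≤ (a + b) * B := by
    refine (MvPolynomial.totalDegree_finsetProd _ _).trans
      ((Finset.sum_le_card_nsmul _ _ B fun i _ => ?_).trans ?_)
    · rw [sylvester, Matrix.of_apply]
      induction i using Fin.addCases with
      | left l =>
        rw [Fin.addCases_left]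
        split_ifs
        · exact hQ _
        · simp
      | right l =>
        rw [Fin.addCases_right]
        split_ifs
        · exact hP _
        · simp
    · rw [Finset.card_univ, Fintype.card_fin, smul_eq_mul]
  rcases Int.units_eq_one_or (Equiv.Perm.sign σ') with e | e <;> rw [e] <;> simpa using hprod

theorem totalDegree_sepPoly_le (α : k[X]) :
    (sepPoly m α).totalDegree ≤ 2 * m * (2 * m + 1) := by
  refine (totalDegree_resultant_le' (totalDegree_coeff_discLine_le α) fun i => ?_).trans
    (Nat.mul_le_mul_right _ (by omega))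
  rw [coeff_derivative, ← Nat.cast_succ, ← map_natCast MvPolynomial.C]
  exact (MvPolynomial.totalDegree_mul _ _).trans
    (by rw [MvPolynomial.totalDegree_C, add_zero]; exact totalDegree_coeff_discLine_le α _)

theorem totalDegree_crossPoly_le (α β : k[X]) :
    (crossPoly m α β).totalDegree ≤ 2 * m * (2 * m + 1) :=
  (totalDegree_resultant_le' (totalDegree_coeff_discLine_le α)
    (totalDegree_coeff_discLine_le β)).trans (Nat.mul_le_mul_right _ (by omega))

variable {K : Type*} [Field K] [IsAlgClosed K] (φ : k →+* K)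

theorem sepPoly_eval_ne_zero_iff {α : k[X]} (hα : α.degree < (m + 1 : ℕ))
    (hn : ((m + 1 : ℕ) : K) ≠ 0) (hm : (m : K) ≠ 0) (z : Fin m → K) :
    MvPolynomial.eval₂Hom φ z (sepPoly m α) ≠ 0 ↔
      ((discLine m α).map (MvPolynomial.eval₂Hom φ z)).Separable := by
  obtain ⟨hd, h0, -⟩ := natDegree_map_discLine φ hα hn z
  set ψ := (discLine m α).map (MvPolynomial.eval₂Hom φ z) with hψ
  have hd' : (derivative ψ).natDegree = m - 1 := by
    obtain ⟨j, hj⟩ : ∃ j, m = j + 1 := ⟨m - 1, by
      have : m ≠ 0 := fun h => hm (by rw [h, Nat.cast_zero]); omega⟩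
    refine natDegree_eq_of_le_of_coeff_ne_zero ((natDegree_derivative_le _).trans (by omega)) ?_
    rw [coeff_derivative, show m - 1 + 1 = m by omega, ← Nat.cast_succ,
      show (m - 1).succ = m by omega]
    refine mul_ne_zero ?_ hm
    rw [← hd]
    exact leadingCoeff_ne_zero.mpr h0
  rw [sepPoly, ← resultant_map_map, ← derivative_map, ← hψ]
  conv_lhs => rw [← hd', ← hd]
  rw [Ne, resultant_eq_zero_iff, separable_def]
  tauto

theorem crossPoly_eval_ne_zero_iff {α β : k[X]} (hα : α.degree < (m + 1 : ℕ))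
    (hβ : β.degree < (m + 1 : ℕ)) (hn : ((m + 1 : ℕ) : K) ≠ 0) (z : Fin m → K) :
    MvPolynomial.eval₂Hom φ z (crossPoly m α β) ≠ 0 ↔
      IsCoprime ((discLine m α).map (MvPolynomial.eval₂Hom φ z))
        ((discLine m β).map (MvPolynomial.eval₂Hom φ z)) := by
  obtain ⟨hd, h0, -⟩ := natDegree_map_discLine φ hα hn z
  obtain ⟨hd', -, -⟩ := natDegree_map_discLine φ hβ hn z
  have key := resultant_eq_zero_iff
    (f := (discLine m α).map (MvPolynomial.eval₂Hom φ z))
    (g := (discLine m β).map (MvPolynomial.eval₂Hom φ z))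
  rw [hd, hd'] at key
  rw [crossPoly, ← resultant_map_map, Ne, key]
  exact ⟨fun h => by_contra fun hc => h ⟨Or.inl h0, hc⟩, fun h hc => hc.2 h⟩

/-- Every monic `g` occurs, up to a constant. -/
theorem exists_coeffs {α : k[X]} (hα : α.degree < (m + 1 : ℕ)) {g : K[X]} (hg : g.Monic)
    (hgd : g.natDegree = m + 1) :
    ∃ (z : Fin m → K) (a : K), poly φ α (Fin.cons 0 z) = g + C a := by
  have hq : g - X ^ (m + 1) - α.map φ ∈ degreeLT K (m + 1) := by
    refine Submodule.sub_mem _ ?_ (mem_degreeLT.mpr (by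
      rwa [degree_map_eq_of_injective φ.injective]))
    rw [mem_degreeLT]
    have hdeg : g.degree = ((m + 1 : ℕ) : WithBot ℕ) := by
      rw [degree_eq_natDegree hg.ne_zero, hgd]
    have := degree_sub_lt_left (hdeg.trans (degree_X_pow (R := K) (m + 1)).symm) hg.ne_zero
      (by rw [hg.leadingCoeff, (monic_X_pow (R := K) (m + 1)).leadingCoeff])
    rwa [hdeg] at this
  set c := degreeLTEquiv K (m + 1) ⟨_, hq⟩ with hc
  have hsum : ∑ i : Fin (m + 1), monomial (i : ℕ) (c i) = g - X ^ (m + 1) - α.map φ :=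
    congrArg Subtype.val ((degreeLTEquiv K (m + 1)).symm_apply_apply ⟨_, hq⟩)
  refine ⟨Fin.tail c, -c 0, ?_⟩
  have h := poly_cons φ α (c 0) (Fin.tail c)
  rw [Fin.cons_self_tail, poly, hsum] at h
  rw [map_neg]
  linear_combination -h

theorem separable_map_discLine_of_values {α : k[X]} (hα : α.degree < (m + 1 : ℕ))
    (hn : ((m + 1 : ℕ) : K) ≠ 0) {z : Fin m → K}
    (hsep : (derivative (poly φ α (Fin.cons 0 z))).Separable)
    (hinj : Set.InjOn (fun θ => (poly φ α (Fin.cons 0 z)).eval θ)
      {θ | θ ∈ (derivative (poly φ α (Fin.cons 0 z))).roots}) :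
    ((discLine m α).map (MvPolynomial.eval₂Hom φ z)).Separable := by
  obtain ⟨-, h0, hr⟩ := natDegree_map_discLine φ hα hn z
  rw [← nodup_roots_iff_of_splits h0 (IsAlgClosed.splits _), hr]
  exact (nodup_roots hsep).map_on fun x hx y hy e => hinj hx hy (neg_injective e)

/-- **Distinct critical values generically.** -/
theorem sepPoly_ne_zero {α : k[X]} (hα : α.degree < (m + 1 : ℕ))
    (hn : ((m + 1 : ℕ) : k) ≠ 0) (hm : (m : k) ≠ 0) : sepPoly m α ≠ 0 := by
  set φ := algebraMap k (AlgebraicClosure k)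
  set E := AlgebraicClosure k
  have hn' : ((m + 1 : ℕ) : E) ≠ 0 := by
    rw [← map_natCast φ]; exact (map_ne_zero φ).mpr hn
  have hm' : (m : E) ≠ 0 := by rw [← map_natCast φ]; exact (map_ne_zero φ).mpr hm
  have hm1 : 1 ≤ m := Nat.one_le_iff_ne_zero.mpr fun h => hm (by rw [h, Nat.cast_zero])
  obtain ⟨z, a, hz⟩ := exists_coeffs φ hα (g := (X ^ (m + 1) - X : E[X]))
    (monic_X_pow_sub (by rw [degree_X]; exact_mod_cast (by omega : 1 < m + 1)))
    (natDegree_eq_of_degree_eq_some (by
      rw [degree_sub_eq_left_of_degree_lt] <;> rw [degree_X_pow]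
      rw [degree_X]; exact_mod_cast (by omega : 1 < m + 1)))
  have hder : derivative (poly φ α (Fin.cons 0 z)) =
      C ((m + 1 : ℕ) : E) * (X ^ m - C (((m + 1 : ℕ) : E))⁻¹) := by
    rw [hz, derivative_add, derivative_C, add_zero, derivative_sub, derivative_X_pow, derivative_X,
      Nat.add_sub_cancel, mul_sub, ← C_mul, mul_inv_cancel₀ hn', C_1]
  have hsep : (derivative (poly φ α (Fin.cons 0 z))).Separable := by
    rw [hder]
    exact (separable_X_pow_sub_C _ hm' (inv_ne_zero hn')).unit_mul
      (isUnit_C.mpr (Ne.isUnit hn'))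
  intro h0
  refine (sepPoly_eval_ne_zero_iff φ hα hn' hm' z).mpr (separable_map_discLine_of_values φ hα hn'
    hsep fun x hx y hy e => ?_) (by rw [h0, map_zero])
  have hroot : ∀ θ ∈ (derivative (poly φ α (Fin.cons 0 z))).roots,
      θ ^ m = (((m + 1 : ℕ) : E))⁻¹ := fun θ hθ => by
    rw [hder, roots_C_mul _ hn', mem_roots', IsRoot, eval_sub, eval_pow, eval_X, eval_C] at hθ
    exact sub_eq_zero.mp hθ.2
  simp only [hz, eval_add, eval_sub, eval_pow, eval_X, eval_C, add_left_inj] at e
  rw [pow_succ, pow_succ, hroot x hx, hroot y hy, ← sub_one_mul, ← sub_one_mul] at e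
  refine mul_left_cancel₀ (sub_ne_zero.mpr fun h => hm' ?_) e
  rw [inv_eq_one, Nat.cast_add, Nat.cast_one] at h
  exact add_eq_right.mp h

/-- **No common critical values generically.** -/
theorem crossPoly_ne_zero {α β : k[X]} (hα : α.degree < (m + 1 : ℕ))
    (hβ : β.degree < (m + 1 : ℕ)) (hn : ((m + 1 : ℕ) : k) ≠ 0) (hne : α ≠ β) :
    crossPoly m α β ≠ 0 := by
  set φ := algebraMap k (AlgebraicClosure k)
  set E := AlgebraicClosure k
  set N : E := ((m + 1 : ℕ) : E) with hN
  have hn' : N ≠ 0 := by rw [hN, ← map_natCast φ]; exact (map_ne_zero φ).mpr hn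
  set δ := (β - α).map φ
  have hδ0 : δ ≠ 0 := (Polynomial.map_ne_zero_iff φ.injective).mpr (sub_ne_zero.mpr hne.symm)
  have hδd : δ.natDegree < m + 1 := by
    rw [natDegree_map, natDegree_lt_iff_degree_lt (sub_ne_zero.mpr hne.symm)]
    exact lt_of_le_of_lt (degree_sub_le _ _) (max_lt hβ hα)
  set Q := C (N ^ (m + 1)) * δ ^ m + derivative δ ^ (m + 1)
  have hQ : Q ≠ 0 := by
    intro h
    have h1 : C (N ^ (m + 1)) * δ ^ m = -derivative δ ^ (m + 1) := eq_neg_of_add_eq_zero_left h
    have hne' : C (N ^ (m + 1)) * δ ^ m ≠ 0 :=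
      mul_ne_zero (C_ne_zero.mpr (pow_ne_zero _ hn')) (pow_ne_zero _ hδ0)
    have hd := congrArg natDegree h1
    rw [natDegree_C_mul (pow_ne_zero _ hn'), natDegree_pow, natDegree_neg, natDegree_pow] at hd
    rcases eq_or_ne δ.natDegree 0 with h0 | h0
    · rw [eq_C_of_natDegree_eq_zero h0, derivative_C, zero_pow (by omega), neg_zero] at h1
      rw [← eq_C_of_natDegree_eq_zero h0] at h1
      exact hne' h1
    · have h2 := natDegree_derivative_lt h0
      have h3 : (m + 1) * ((derivative δ).natDegree + 1) ≤ (m + 1) * δ.natDegree :=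
        Nat.mul_le_mul_left _ h2
      nlinarith
  obtain ⟨s, hs⟩ := Infinite.exists_notMem_finset (δ.roots.toFinset ∪ Q.roots.toFinset.image
    fun η => η - N * δ.eval η / (derivative δ).eval η)
  rw [Finset.mem_union, not_or] at hs
  obtain ⟨z, a, hz⟩ := exists_coeffs φ hα (g := ((X - C s) ^ (m + 1) : E[X]))
    ((monic_X_sub_C s).pow _) (by rw [natDegree_pow, natDegree_X_sub_C, mul_one])
  have hz' : poly φ β (Fin.cons 0 z) = (X - C s) ^ (m + 1) + δ + C a := by
    rw [show poly φ β (Fin.cons 0 z) = poly φ α (Fin.cons 0 z) + δ by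
      simp only [poly, δ, Polynomial.map_sub]; ring, hz]
    ring
  intro h0
  refine (crossPoly_eval_ne_zero_iff φ hα hβ hn' z).mpr ?_ (by rw [h0, map_zero])
  obtain ⟨-, hα0, hrα⟩ := natDegree_map_discLine φ hα hn' z
  obtain ⟨-, hβ0, hrβ⟩ := natDegree_map_discLine φ hβ hn' z
  refine isCoprime_of_irreducible_dvd (fun h => hα0 h.1) fun u hu hd hd' => ?_
  obtain ⟨x, hx⟩ := IsAlgClosed.exists_root u (degree_pos_of_irreducible hu).ne'
  have h1 := (mem_roots hα0).mpr (hx.dvd hd)
  have h2 := (mem_roots hβ0).mpr (hx.dvd hd')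
  rw [hrα] at h1
  rw [hrβ] at h2
  obtain ⟨θ, hθ, rfl⟩ := Multiset.mem_map.mp h1
  obtain ⟨η, hη, hv⟩ := Multiset.mem_map.mp h2
  rw [hz, hz', neg_inj] at hv
  have hθs : θ = s := by
    have h := (mem_roots'.mp hθ).2
    rw [hz, IsRoot, derivative_add, derivative_C, add_zero, derivative_pow, derivative_sub,
      derivative_X, derivative_C, sub_zero, mul_one, eval_mul, eval_C, eval_pow, eval_sub, eval_X,
      eval_C] at h
    exact sub_eq_zero.mp (pow_eq_zero_iff'.mp ((mul_eq_zero.mp h).resolve_left hn')).1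
  have hηd : N * (η - s) ^ m + (derivative δ).eval η = 0 := by
    have h := (mem_roots'.mp hη).2
    rw [hz', IsRoot, derivative_add, derivative_C, add_zero, derivative_add, derivative_pow,
      derivative_sub, derivative_X, derivative_C, sub_zero, mul_one, eval_add, eval_mul, eval_C,
      eval_pow, eval_sub, eval_X, eval_C, Nat.add_sub_cancel] at h
    exact h
  have hval : (η - s) ^ (m + 1) + δ.eval η = 0 := by
    simp only [hθs, eval_add, eval_pow, eval_sub, eval_X, eval_C, add_left_inj, sub_self,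
      zero_pow (Nat.succ_ne_zero m)] at hv
    exact hv
  have hrel : (η - s) * (derivative δ).eval η = N * δ.eval η := by
    linear_combination (η - s) * hηd - N * hval
  rcases eq_or_ne ((derivative δ).eval η) 0 with hd0 | hd0
  · have hδη : δ.eval η = 0 := by
      rw [hd0, mul_zero] at hrel
      exact (mul_eq_zero.mp hrel.symm).resolve_left hn'
    rw [hδη, add_zero] at hval
    have hηs : η = s := sub_eq_zero.mp (pow_eq_zero_iff'.mp hval).1
    exact hs.1 (Multiset.mem_toFinset.mpr ((mem_roots hδ0).mpr (hηs ▸ hδη)))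
  · refine hs.2 (Finset.mem_image.mpr ⟨η, Multiset.mem_toFinset.mpr ((mem_roots hQ).mpr ?_), ?_⟩)
    · simp only [Q, IsRoot, eval_add, eval_mul, eval_C, eval_pow]
      refine mul_left_cancel₀ (pow_ne_zero 1 hn') ?_
      have h3 : (η - s) ^ m * (derivative δ).eval η ^ m = N ^ m * δ.eval η ^ m := by
        rw [← mul_pow, hrel, mul_pow]
      rw [pow_one, mul_zero, pow_succ' N m, pow_succ' ((derivative δ).eval η) m]
      linear_combination -(N * N) * h3 + N * (derivative δ).eval η ^ m * hηd
    · field_simp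
      linear_combination hrel

end FA.ChowlaLargeField
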